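import Fermat.Agent.S14.Th.Exact

/-!
# S14, block (FL), package FL-3 : general Dedekind domain lemmas
-/

set_option autoImplicit false

namespace Fermat.Agent.S14.FL

open Th

section
variable {R : Type*} [CommRing R] [IsDedekindDomain R]

open scoped Classical in
theorem dedekind_exactPow_count (P : Ideal R) [P.IsPrime] (hP : P ≠ ⊥) {x : R} (hx : x ≠ 0) :
    ExactPow P x ((UniqueFactorizationMonoid.normalizedFactors (Ideal.span {x})).count P) := by
  rw [exact_iff_emultiplicity]
  have hirr : Irreducible P := (Ideal.prime_of_isPrime hP ‹_›).irreducible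
  have h0 : Ideal.span {x} ≠ 0 := by
    rwa [Ne, Ideal.zero_eq_bot, Ideal.span_singleton_eq_bot]
  rw [UniqueFactorizationMonoid.emultiplicity_eq_count_normalizedFactors hirr h0, normalize_eq]

/-- every nonzero element has an exact power at every prime (also at `⊥`). -/
theorem dedekind_exists_exactPow (P : Ideal R) [P.IsPrime] {x : R} (hx : x ≠ 0) :
    ∃ c, ExactPow P x c := by
  by_cases hP : P = ⊥
  · subst hP
    exact ⟨0, (exact_bot_iff x 0).mpr ⟨hx, rfl⟩⟩
  · exact exists_exactPow P hP hx

/-- An element all of whose prime exponents are divisible by `p` generates a `p`-th power ideal.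
(`Multiset.exists_smul_of_dvd_count` on `normalizedFactors (span {α})`, `Multiset.prod_nsmul`,
`Ideal.prod_normalizedFactors_eq_self`; count = exact power: see `Th.classRel_exactPow_count` in
`Th/ClassRel.lean` or `exact_iff_emultiplicity`.) -/
theorem exists_pow_eq_span {p : ℕ} (hp : p ≠ 0) {α : R} (hα : α ≠ 0)
    (h : ∀ (P : Ideal R) [P.IsPrime], P ≠ ⊥ → ∀ c, ExactPow P α c → p ∣ c) :
    ∃ 𝔞 : Ideal R, 𝔞 ^ p = Ideal.span {α} := by
  classical
  have h0 : Ideal.span {α} ≠ ⊥ := by
    rwa [Ne, Ideal.span_singleton_eq_bot]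
  obtain ⟨u, hu⟩ := Multiset.exists_smul_of_dvd_count
    (UniqueFactorizationMonoid.normalizedFactors (Ideal.span {α})) (k := p) (by
      intro P hP
      have hprime : Prime P := UniqueFactorizationMonoid.prime_of_normalized_factor P hP
      have hP0 : P ≠ ⊥ := hprime.ne_zero
      haveI : P.IsPrime := Ideal.isPrime_of_prime hprime
      exact h P hP0 _ (dedekind_exactPow_count P hP0 hα))
  refine ⟨u.prod, ?_⟩
  rw [← Multiset.prod_nsmul, ← hu, Ideal.prod_normalizedFactors_eq_self h0]

/-- membership in `P ^ n` in terms of the exact power. -/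
theorem mem_pow_iff_of_exactPow {P : Ideal R} {x : R} {c : ℕ} (hc : ExactPow P x c) (n : ℕ) :
    x ∈ P ^ n ↔ n ≤ c := by
  constructor
  · intro hx
    by_contra hn
    exact hc.2 (Ideal.pow_le_pow_right (by omega) hx)
  · intro hn
    exact Ideal.pow_le_pow_right hn hc.1

end

section
variable {R S : Type*} [CommRing R] [IsDedekindDomain R] [CommRing S] [IsDedekindDomain S]
  [Algebra R S] [Module.IsTorsionFree R S]

/-- If some element of `R` is a uniformiser at `Q` then `Q` is unramified over `R`. -/
theorem ramificationIdx_eq_one_of_exactPow (Q : Ideal S) [Q.IsPrime] (hQ : Q ≠ ⊥) {t : R}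
    (ht : ExactPow Q (algebraMap R S t) 1) : Q.ramificationIdx R = 1 := by
  have ht0 : t ≠ 0 := by
    rintro rfl
    exact ht.2 (by rw [map_zero]; exact zero_mem _)
  obtain ⟨c, hc⟩ := dedekind_exists_exactPow (Q.under R) ht0
  have h1 := (ExactPow.algebraMap Q hQ hc).unique ht
  exact Nat.eq_one_of_mul_eq_one_right h1

/-- Exact powers do not change in an unramified extension. -/
theorem exactPow_under_iff (Q : Ideal S) [Q.IsPrime] (hQ : Q ≠ ⊥)
    (he : Q.ramificationIdx R = 1) (x : R) (c : ℕ) :
    ExactPow (Q.under R) x c ↔ ExactPow Q (algebraMap R S x) c := by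
  constructor
  · intro h
    have := ExactPow.algebraMap Q hQ h
    rwa [he, one_mul] at this
  · intro h
    have hx0 : x ≠ 0 := by
      rintro rfl
      exact h.2 (by rw [map_zero]; exact zero_mem _)
    obtain ⟨d, hd⟩ := dedekind_exists_exactPow (Q.under R) hx0
    have h1 := ExactPow.algebraMap Q hQ hd
    rw [he, one_mul] at h1
    rwa [← h1.unique h]

/-- `P ^ n ∩ R = (P ∩ R) ^ n` in the unramified case. -/
theorem mem_under_pow_iff (Q : Ideal S) [Q.IsPrime] (hQ : Q ≠ ⊥)
    (he : Q.ramificationIdx R = 1) (x : R) (n : ℕ) :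
    x ∈ (Q.under R) ^ n ↔ algebraMap R S x ∈ Q ^ n := by
  by_cases hx0 : x = 0
  · subst hx0
    simp
  · obtain ⟨d, hd⟩ := dedekind_exists_exactPow (Q.under R) hx0
    rw [mem_pow_iff_of_exactPow hd, mem_pow_iff_of_exactPow ((exactPow_under_iff Q hQ he x d).mp hd)]

end

end Fermat.Agent.S14.FL
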