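import Fermat.Agent.S14.Th.Exact

/-!
# S14, block (FL), package FL-1 : bridge to Mathlib's Hilbert ramification theory for `E/ℚ` Galois

`Gal(E/ℚ)` acts on `𝓞 E` by `τ • x = sigO τ x` (this is `rfl`), Mathlib has the instance
`IsGaloisGroup Gal(E/ℚ) ℤ (𝓞 E)` and
`Ideal.card_inertia_eq_ramificationIdxIn`, `Ideal.card_stabilizer_eq`,
`Ideal.ramificationIdxIn_eq_ramificationIdx`, `Ideal.inertiaDegIn_eq_inertiaDeg`
(file `Mathlib/NumberTheory/RamificationInertia/Galois.lean`).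
-/

set_option autoImplicit false

namespace Fermat.Agent.S14.FL

open NumberField
open scoped Pointwise

variable {E : Type*} [Field E] [NumberField E] [IsGalois ℚ E]

omit [IsGalois ℚ E] in
theorem hilbert_smul_eq (τ : E ≃ₐ[ℚ] E) (x : 𝓞 E) : τ • x = sigO τ x := rfl

/-- Trivial inertia group `⇒` unramified over `ℤ`. -/
theorem ramificationIdx_eq_one_of_inertia (P : Ideal (𝓞 E)) [P.IsPrime] (hP : P ≠ ⊥)
    (h : ∀ τ : E ≃ₐ[ℚ] E, (∀ x : 𝓞 E, sigO τ x - x ∈ P) → τ = 1) :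
    P.ramificationIdx ℤ = 1 := by
  have hbot : P.inertia (E ≃ₐ[ℚ] E) = ⊥ := by
    rw [eq_bot_iff]
    intro τ hτ
    exact Subgroup.mem_bot.mpr (h τ hτ)
  rw [← Ideal.ramificationIdxIn_eq_ramificationIdx (P.under ℤ) P (E ≃ₐ[ℚ] E),
    ← Ideal.card_inertia_eq_ramificationIdxIn (G := (E ≃ₐ[ℚ] E)) (P.under ℤ) P, hbot]
  simp

omit [IsGalois ℚ E] in
theorem hilbert_mem_stabilizer_iff (P : Ideal (𝓞 E)) (τ : E ≃ₐ[ℚ] E) :
    τ ∈ MulAction.stabilizer (E ≃ₐ[ℚ] E) P ↔ ∀ x : 𝓞 E, x ∈ P ↔ sigO τ x ∈ P := by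
  rw [MulAction.mem_stabilizer_iff]
  constructor
  · intro h x
    constructor
    · intro hx
      rw [← h]
      exact Ideal.smul_mem_pointwise_smul τ x P hx
    · intro hx
      rw [← h] at hx
      exact (Ideal.smul_mem_pointwise_smul_iff (a := τ)).mp hx
  · intro h
    ext x
    rw [Ideal.mem_pointwise_smul_iff_inv_smul_mem, h (τ⁻¹ • x), ← hilbert_smul_eq, smul_inv_smul]

/-- `e f = |D|`. -/
theorem ramificationIdx_mul_inertiaDeg_eq (P : Ideal (𝓞 E)) [P.IsPrime] (hP : P ≠ ⊥) :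
    P.ramificationIdx ℤ * P.inertiaDeg ℤ =
      Nat.card {τ : E ≃ₐ[ℚ] E // ∀ x : 𝓞 E, x ∈ P ↔ sigO τ x ∈ P} := by
  rw [← Ideal.ramificationIdxIn_eq_ramificationIdx (P.under ℤ) P (E ≃ₐ[ℚ] E),
    ← Ideal.inertiaDegIn_eq_inertiaDeg (P.under ℤ) P (E ≃ₐ[ℚ] E),
    ← Ideal.card_stabilizer_eq (G := (E ≃ₐ[ℚ] E)) (P.under ℤ) P]
  exact Nat.card_congr (Equiv.subtypeEquivRight fun τ => hilbert_mem_stabilizer_iff P τ)

omit [IsGalois ℚ E] in
/-- The rational prime `q ∈ P` has exact valuation `e(P/q)` (use `Th.ExactPow.algebraMap` with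
`R = ℤ`; `P.under ℤ = span {q}`). -/
theorem exactPow_natCast (P : Ideal (𝓞 E)) [P.IsPrime] {q : ℕ} (hq : q.Prime)
    (hqP : (q : 𝓞 E) ∈ P) : Th.ExactPow P (q : 𝓞 E) (P.ramificationIdx ℤ) := by
  have hP : P ≠ ⊥ := by
    rintro rfl
    rw [Ideal.mem_bot] at hqP
    exact hq.ne_zero (by exact_mod_cast hqP)
  have hqz : Prime (q : ℤ) := Nat.prime_iff_prime_int.mp hq
  have hmax : (Ideal.span {(q : ℤ)}).IsMaximal :=
    PrincipalIdealRing.isMaximal_of_irreducible hqz.irreducible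
  have hunder : P.under ℤ = Ideal.span {(q : ℤ)} := by
    symm
    apply hmax.eq_of_le (Ideal.IsPrime.ne_top inferInstance)
    rw [Ideal.span_singleton_le_iff_mem, Ideal.mem_comap]
    simpa using hqP
  have hc : Th.ExactPow (P.under ℤ) (q : ℤ) 1 := by
    rw [hunder]
    refine ⟨by simp, ?_⟩
    rw [Ideal.span_singleton_pow, Ideal.mem_span_singleton]
    intro hdvd
    have : (q : ℤ) * q ∣ q * 1 := by simpa [pow_two] using hdvd
    exact hqz.not_isUnit (isUnit_of_dvd_one ((mul_dvd_mul_iff_left hqz.ne_zero).mp this))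
  have := Th.ExactPow.algebraMap (R := ℤ) P hP hc
  simpa using this

omit [IsGalois ℚ E] in
/-- Residue degree one `⇒` every integer of `E` is congruent to a rational integer. -/
theorem exists_int_sub_mem_of_inertiaDeg (P : Ideal (𝓞 E)) [P.IsPrime] (hP : P ≠ ⊥)
    (hf : P.inertiaDeg ℤ = 1) (u : 𝓞 E) : ∃ m : ℤ, u - (m : 𝓞 E) ∈ P := by
  have hPmax : P.IsMaximal := Ideal.IsPrime.isMaximal inferInstance hP
  have hpmax : (P.under ℤ).IsMaximal := inferInstance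
  let _ : Field (ℤ ⧸ P.under ℤ) := Ideal.Quotient.field _
  let _ : Field (𝓞 E ⧸ P) := Ideal.Quotient.field _
  rw [Ideal.inertiaDeg_eq_of_isMaximal (P.under ℤ) P] at hf
  have htop := Subalgebra.bot_eq_top_of_finrank_eq_one hf
  have hmem : Ideal.Quotient.mk P u ∈ (⊥ : Subalgebra (ℤ ⧸ P.under ℤ) (𝓞 E ⧸ P)) := by
    rw [htop]; exact Algebra.mem_top
  obtain ⟨m, hm⟩ := Algebra.mem_bot.mp hmem
  obtain ⟨m, rfl⟩ := Ideal.Quotient.mk_surjective m
  refine ⟨m, ?_⟩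
  rw [← Ideal.Quotient.eq, ← hm]
  simp

omit [IsGalois ℚ E] in
theorem inertiaDeg_ne_zero (P : Ideal (𝓞 E)) [P.IsPrime] (hP : P ≠ ⊥) :
    P.inertiaDeg ℤ ≠ 0 :=
  (P.inertiaDeg_pos ℤ).ne'

end Fermat.Agent.S14.FL
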