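import Fermat.Agent.S14.FL.Hilbert

/-!
# S14, block (FL), package FL-2 : the prime above `p` with small decomposition group;
primes not above `p`.
-/

set_option autoImplicit false

namespace Fermat.Agent.S14.FL

open NumberField

/-- `p = ∏ (1 - μ)`, the product over the primitive `p`-th roots of unity. -/
theorem AtP_natCast_eq_prod {R : Type*} [CommRing R] [IsDomain R] {p : ℕ} [Fact p.Prime] {ζ : R}
    (hζ : IsPrimitiveRoot ζ p) : (p : R) = ∏ μ ∈ primitiveRoots p R, (1 - μ) := by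
  have h1 := Polynomial.cyclotomic_eq_prod_X_sub_primitiveRoots hζ
  have h2 := congrArg (Polynomial.eval 1) h1
  rw [Polynomial.eval_one_cyclotomic_prime, Polynomial.eval_prod] at h2
  simpa using h2

variable {E : Type*} [Field E] [NumberField E] {p : ℕ} [Fact p.Prime]

/-- `p = ∏_{i=1}^{p-1} (1 - ζ^i) ∈ (1 - ζ)^(p-1)`. -/
theorem natCast_mem_span_pow {ζ : 𝓞 E} (hζ : IsPrimitiveRoot ζ p) :
    (p : 𝓞 E) ∈ Ideal.span {1 - ζ} ^ (p - 1) := by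
  have hp : p.Prime := Fact.out
  rw [Ideal.span_singleton_pow, Ideal.mem_span_singleton, AtP_natCast_eq_prod hζ]
  have hcard : (primitiveRoots p (𝓞 E)).card = p - 1 := by
    rw [hζ.card_primitiveRoots, Nat.totient_prime hp]
  rw [← hcard, ← Finset.prod_const]
  refine Finset.prod_dvd_prod_of_dvd _ _ fun μ hμ => ?_
  have hμ' : IsPrimitiveRoot μ p := (mem_primitiveRoots hp.pos).mp hμ
  obtain ⟨i, -, rfl⟩ := hζ.eq_pow_of_pow_eq_one hμ'.pow_eq_one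
  exact one_sub_dvd_one_sub_pow ζ i

/-- `1 - ζ` lies in every prime containing `p`. -/
theorem one_sub_mem {ζ : 𝓞 E} (hζ : IsPrimitiveRoot ζ p) (P : Ideal (𝓞 E)) [hPp : P.IsPrime]
    (hpP : (p : 𝓞 E) ∈ P) : 1 - ζ ∈ P := by
  have hp : p.Prime := Fact.out
  rw [AtP_natCast_eq_prod hζ, hPp.prod_mem_iff] at hpP
  obtain ⟨μ, hμ, hμP⟩ := hpP
  have hμ' : IsPrimitiveRoot μ p := (mem_primitiveRoots hp.pos).mp hμ
  obtain ⟨i, -, rfl⟩ := hμ'.eq_pow_of_pow_eq_one hζ.pow_eq_one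
  exact Ideal.mem_of_dvd P (one_sub_dvd_one_sub_pow μ i) hμP

/-- If `ζ ^ a ≡ ζ ^ b mod P` and `p ∉ P` then `ζ ^ a = ζ ^ b`
(`1 - ζ^c` divides `p` up to a unit / `p ∈ span {1 - ζ^c}` when `p ∤ c`, by
`natCast_mem_span_pow` applied to the primitive root `ζ ^ c`). -/
theorem pow_eq_pow_of_sub_mem {ζ : 𝓞 E} (hζ : IsPrimitiveRoot ζ p) (P : Ideal (𝓞 E)) [P.IsPrime]
    (hpP : (p : 𝓞 E) ∉ P) {a b : ℕ} (h : ζ ^ a - ζ ^ b ∈ P) : ζ ^ a = ζ ^ b := by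
  have hp : p.Prime := Fact.out
  have hb : ζ ^ b * (ζ ^ b) ^ (p - 1) = 1 := by
    rw [← pow_succ', Nat.sub_add_cancel hp.one_le, ← pow_mul, mul_comm, pow_mul, hζ.pow_eq_one,
      one_pow]
  have hne : (ζ ^ b) ^ (p - 1) ≠ 0 := by
    intro h0
    rw [h0, mul_zero] at hb
    exact zero_ne_one hb
  have hc : ζ ^ (a + b * (p - 1)) = ζ ^ a * (ζ ^ b) ^ (p - 1) := by
    rw [pow_add, pow_mul]
  have hmem : 1 - ζ ^ (a + b * (p - 1)) ∈ P := by
    have : 1 - ζ ^ (a + b * (p - 1)) = -((ζ ^ a - ζ ^ b) * (ζ ^ b) ^ (p - 1)) := by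
      rw [hc, sub_mul, hb]; ring
    rw [this]
    exact P.neg_mem (P.mul_mem_right _ h)
  by_cases hdvd : p ∣ a + b * (p - 1)
  · have h1 : ζ ^ (a + b * (p - 1)) = 1 := (hζ.pow_eq_one_iff_dvd _).mpr hdvd
    rw [hc, ← hb] at h1
    exact mul_right_cancel₀ hne h1
  · exfalso
    have hprim : IsPrimitiveRoot (ζ ^ (a + b * (p - 1))) p :=
      hζ.pow_of_coprime _ ((Nat.Prime.coprime_iff_not_dvd hp).mpr hdvd).symm
    have h2 := natCast_mem_span_pow hprim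
    have h3 : Ideal.span {1 - ζ ^ (a + b * (p - 1))} ^ (p - 1) ≤ P := by
      refine (Ideal.pow_le_self (by have := hp.two_le; omega)).trans ?_
      rwa [Ideal.span_singleton_le_iff_mem]
    exact hpP (h3 h2)

/-- every automorphism maps `ζ` to a power of `ζ`. -/
theorem exists_pow_eq {ζ : 𝓞 E} (hζ : IsPrimitiveRoot ζ p) (τ : E ≃ₐ[ℚ] E) :
    ∃ a : ℕ, a < p ∧ sigO τ ζ = ζ ^ a := by
  have h1 : (sigO τ ζ) ^ p = 1 := by rw [← map_pow, hζ.pow_eq_one, map_one]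
  obtain ⟨i, hi, h⟩ := hζ.eq_pow_of_pow_eq_one h1
  exact ⟨i, hi, h.symm⟩

/-- An element of the inertia group of a prime not above `p` fixes `ζ`. -/
theorem sigO_eq_of_inertia {ζ : 𝓞 E} (hζ : IsPrimitiveRoot ζ p) (P : Ideal (𝓞 E)) [P.IsPrime]
    (hpP : (p : 𝓞 E) ∉ P) (τ : E ≃ₐ[ℚ] E) (h : sigO τ ζ - ζ ∈ P) : sigO τ ζ = ζ := by
  obtain ⟨a, -, ha⟩ := exists_pow_eq hζ τ
  rw [ha] at h ⊢
  have := pow_eq_pow_of_sub_mem hζ P hpP (a := a) (b := 1) (by simpa using h)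
  simpa using this

theorem AtP_sigO_mul (σ τ : E ≃ₐ[ℚ] E) (x : 𝓞 E) : sigO (σ * τ) x = sigO σ (sigO τ x) := rfl

theorem AtP_sigO_inv_apply (σ : E ≃ₐ[ℚ] E) (x : 𝓞 E) : sigO σ⁻¹ (sigO σ x) = x := by
  rw [← AtP_sigO_mul, inv_mul_cancel]
  rfl

theorem AtP_sigO_apply_inv (σ : E ≃ₐ[ℚ] E) (x : 𝓞 E) : sigO σ (sigO σ⁻¹ x) = x := by
  rw [← AtP_sigO_mul, mul_inv_cancel]
  rfl

/-- the decomposition group injects into the primitive roots. -/
theorem AtP_card_le {ζ : 𝓞 E} (hζ : IsPrimitiveRoot ζ p) (P : Ideal (𝓞 E))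
    (h : ∀ τ : E ≃ₐ[ℚ] E, (∀ x : 𝓞 E, x ∈ P ↔ sigO τ x ∈ P) → sigO τ ζ = ζ → τ = 1) :
    Nat.card {τ : E ≃ₐ[ℚ] E // ∀ x : 𝓞 E, x ∈ P ↔ sigO τ x ∈ P} ≤ p - 1 := by
  have hp : p.Prime := Fact.out
  have hcard : (primitiveRoots p (𝓞 E)).card = p - 1 := by
    rw [hζ.card_primitiveRoots, Nat.totient_prime hp]
  let f : {τ : E ≃ₐ[ℚ] E // ∀ x : 𝓞 E, x ∈ P ↔ sigO τ x ∈ P} → primitiveRoots p (𝓞 E) :=
    fun τ => ⟨sigO τ.1 ζ, (mem_primitiveRoots hp.pos).mpr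
      (hζ.map_of_injective (sigO τ.1).injective)⟩
  have hf : Function.Injective f := by
    rintro ⟨τ, hτ⟩ ⟨τ', hτ'⟩ hEq
    have hEq' : sigO τ ζ = sigO τ' ζ := congrArg Subtype.val hEq
    have h1 : τ'⁻¹ * τ = 1 := by
      refine h _ (fun x => ?_) ?_
      · rw [AtP_sigO_mul, hτ x, hτ' (sigO τ'⁻¹ (sigO τ x)), AtP_sigO_apply_inv]
      · rw [AtP_sigO_mul, hEq', AtP_sigO_inv_apply]
    have h2 : τ = τ' := by
      have := congrArg (fun g => τ' * g) h1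
      simpa using this
    exact Subtype.ext h2
  have := Nat.card_le_card_of_injective f hf
  have h2 : Nat.card (primitiveRoots p (𝓞 E)) = p - 1 := by
    rw [Nat.card_eq_fintype_card, Fintype.card_coe, hcard]
  rwa [h2] at this

variable [IsGalois ℚ E]

/-- Let `P ∋ p` be a prime whose decomposition group `D` meets `H = {τ | τ ζ = ζ}` trivially.
Then `τ ↦ (a with τ ζ = ζ^a, 1 ≤ a < p)` is injective on `D`, so `e f = |D| ≤ p - 1`.  If
`ExactPow P (1 - ζ) c` then `c ≥ 1` and `p ∈ P ^ (c (p-1))`, so `c (p-1) ≤ e`.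
Hence `c = 1`, `f = 1`. -/
theorem at_p {ζ : 𝓞 E} (hζ : IsPrimitiveRoot ζ p) (P : Ideal (𝓞 E)) [P.IsPrime]
    (hpP : (p : 𝓞 E) ∈ P)
    (h : ∀ τ : E ≃ₐ[ℚ] E, (∀ x : 𝓞 E, x ∈ P ↔ sigO τ x ∈ P) → sigO τ ζ = ζ → τ = 1) :
    Th.ExactPow P (1 - ζ) 1 ∧ ∀ u : 𝓞 E, ∃ m : ℤ, u - (m : 𝓞 E) ∈ P := by
  have hp : p.Prime := Fact.out
  have hp2 := hp.two_le
  have hP : P ≠ ⊥ := by
    rintro rfl
    have : (p : 𝓞 E) = 0 := by simpa using hpP
    exact hp.ne_zero (by exact_mod_cast this)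
  have hef := ramificationIdx_mul_inertiaDeg_eq P hP
  have hD := AtP_card_le hζ P h
  have hf0 := inertiaDeg_ne_zero P hP
  have he := exactPow_natCast P hp hpP
  have hne : (1 - ζ) ≠ 0 := sub_ne_zero.mpr (hζ.ne_one hp.one_lt).symm
  obtain ⟨c, hc⟩ := Th.exists_exactPow P hP hne
  have hc1 : 1 ≤ c := by
    by_contra hc0
    have : c = 0 := by omega
    subst this
    exact hc.2 (by simpa using one_sub_mem hζ P hpP)
  have hmem : (p : 𝓞 E) ∈ P ^ (c * (p - 1)) := by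
    have h1 : Ideal.span {1 - ζ} ≤ P ^ c := by
      rw [Ideal.span_singleton_le_iff_mem]; exact hc.1
    rw [pow_mul]
    exact Ideal.pow_right_mono h1 _ (natCast_mem_span_pow hζ)
  have hle : c * (p - 1) ≤ P.ramificationIdx ℤ := by
    by_contra hlt
    exact he.2 (Ideal.pow_le_pow_right (by omega) hmem)
  set e := P.ramificationIdx ℤ with he_def
  set f := P.inertiaDeg ℤ with hf_def
  have hefle : e * f ≤ p - 1 := hef ▸ hD
  have h1 : (p - 1) ≤ c * (p - 1) := Nat.le_mul_of_pos_left _ hc1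
  have h2 : e ≤ e * f := Nat.le_mul_of_pos_right _ (Nat.pos_of_ne_zero hf0)
  have he_eq : e = p - 1 := by omega
  have hc_eq : c = 1 := by
    have h3 : c * (p - 1) = 1 * (p - 1) := by omega
    exact Nat.eq_of_mul_eq_mul_right (by omega) h3
  have hf_eq : f = 1 := by
    have h3 : e * f = e * 1 := by omega
    exact Nat.eq_of_mul_eq_mul_left (by omega) h3
  subst hc_eq
  exact ⟨hc, exists_int_sub_mem_of_inertiaDeg P hP hf_eq⟩

end Fermat.Agent.S14.FL
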