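import Fermat.Agent.S14.Defs

/-!
# S14, block (FL), package FL-4 : Galois descent from `E` to a subfield `K ∋ ζ`
-/

set_option autoImplicit false

namespace Fermat.Agent.S14.FL

open NumberField

variable {K : Type*} [Field K] [NumberField K] {E : Type*} [Field E] [NumberField E] [Algebra K E]
  [IsGalois ℚ E]

omit [NumberField K] [NumberField E] [IsGalois ℚ E] in
theorem descent_coe_algebraMap (x : 𝓞 K) :
    ((algebraMap (𝓞 K) (𝓞 E) x : 𝓞 E) : E) = algebraMap K E (x : K) := rfl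

omit [NumberField K] [Algebra K E] [IsGalois ℚ E] in
theorem descent_coe_sigO (τ : E ≃ₐ[ℚ] E) (x : 𝓞 E) : ((sigO τ x : 𝓞 E) : E) = τ (x : E) := rfl

/-- An element of `E` fixed by every `τ ∈ Gal(E/ℚ)` fixing `ζ` lies in `K` if `ζ ∈ K`.
(`IsGalois K E` by `IsGalois.tower_top_of_isGalois`; a `K`-automorphism `τ'` gives
`τ'.restrictScalars ℚ` which fixes the image of `ζK`; `IsGalois.mem_range_algebraMap_iff_fixed`.) -/
theorem exists_algebraMap_eq_of_fixed (ζK : K) (x : E)
    (h : ∀ τ : E ≃ₐ[ℚ] E, τ (algebraMap K E ζK) = algebraMap K E ζK → τ x = x) :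
    ∃ y : K, algebraMap K E y = x := by
  have : IsGalois K E := IsGalois.tower_top_of_isGalois ℚ K E
  have hx : x ∈ Set.range (algebraMap K E) := by
    rw [IsGalois.mem_range_algebraMap_iff_fixed]
    intro f
    exact h (f.restrictScalars ℚ) (f.commutes ζK)
  exact hx

/-- Integral version. -/
theorem exists_algebraMap_eq_of_fixed_int (ζK : 𝓞 K) (x : 𝓞 E)
    (h : ∀ τ : E ≃ₐ[ℚ] E, sigO τ (algebraMap (𝓞 K) (𝓞 E) ζK) = algebraMap (𝓞 K) (𝓞 E) ζK →
      sigO τ x = x) :
    ∃ y : 𝓞 K, algebraMap (𝓞 K) (𝓞 E) y = x := by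
  obtain ⟨y, hy⟩ := exists_algebraMap_eq_of_fixed (ζK : K) (x : E) (fun τ hτ => by
    have h1 := h τ (by
      apply RingOfIntegers.ext
      rw [descent_coe_sigO, descent_coe_algebraMap]
      exact hτ)
    have h2 := congrArg (fun a : 𝓞 E => (a : E)) h1
    exact h2)
  have hyint : IsIntegral ℤ y := by
    have hxint : IsIntegral ℤ (x : E) := RingOfIntegers.isIntegral_coe x
    rw [← hy] at hxint
    exact (isIntegral_algebraMap_iff (algebraMap K E).injective).mp hxint
  refine ⟨⟨y, hyint⟩, ?_⟩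
  apply RingOfIntegers.ext
  exact (descent_coe_algebraMap (E := E) (⟨y, hyint⟩ : 𝓞 K)).trans hy

/-- Every automorphism of `K` lifts to `E` (`AlgEquiv.liftNormal`, `AlgEquiv.liftNormal_commutes`). -/
theorem exists_lift (σK : K ≃ₐ[ℚ] K) :
    ∃ σ : E ≃ₐ[ℚ] E, ∀ x : K, σ (algebraMap K E x) = algebraMap K E (σK x) :=
  ⟨σK.liftNormal E, fun x => σK.liftNormal_commutes E x⟩

omit [IsGalois ℚ E] in
theorem sigO_algebraMap (σK : K ≃ₐ[ℚ] K) (σ : E ≃ₐ[ℚ] E)
    (h : ∀ x : K, σ (algebraMap K E x) = algebraMap K E (σK x)) (x : 𝓞 K) :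
    sigO σ (algebraMap (𝓞 K) (𝓞 E) x) = algebraMap (𝓞 K) (𝓞 E) (sigO σK x) := by
  apply RingOfIntegers.ext
  rw [descent_coe_sigO, descent_coe_algebraMap, descent_coe_algebraMap]
  exact h x

omit [IsGalois ℚ E] in
theorem algebraMap_int_injective : Function.Injective (algebraMap (𝓞 K) (𝓞 E)) := by
  intro a b hab
  apply RingOfIntegers.ext
  apply (algebraMap K E).injective
  rw [← descent_coe_algebraMap, ← descent_coe_algebraMap, hab]

end Fermat.Agent.S14.FL
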