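import Fermat.Agent.S14.FL.Contract
import Fermat.Agent.S14.FL.AtP
import Fermat.Agent.S14.FL.Dedekind
import Fermat.Agent.S14.FL.Descent

/-!
# S14, block (FL): `finiteLevel` from `core`
-/

set_option autoImplicit false

namespace Fermat.Agent.S14.FL

open NumberField Th

section basic

variable {K : Type*} [Field K] {E : Type*} [Field E] [Algebra K E]

theorem main_coe_sigO [NumberField E] (τ : E ≃ₐ[ℚ] E) (x : 𝓞 E) :
    ((sigO τ x : 𝓞 E) : E) = τ (x : E) := rfl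

theorem main_coe_algebraMap (x : 𝓞 K) :
    ((algebraMap (𝓞 K) (𝓞 E) x : 𝓞 E) : E) = algebraMap K E (x : K) := rfl

end basic

section general

variable {E : Type*} [Field E] [NumberField E]

/-- A nonzero prime of `𝓞 E` contains a rational prime. -/
theorem main_exists_prime_mem (Q : Ideal (𝓞 E)) [Q.IsPrime] (hQ : Q ≠ ⊥) :
    ∃ q : ℕ, q.Prime ∧ (q : 𝓞 E) ∈ Q := by
  have h1 : Q.under ℤ ≠ ⊥ := Ideal.IsIntegral.comap_ne_bot (R := ℤ) hQ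
  have h2 : (Q.under ℤ).IsPrime := inferInstance
  obtain ⟨n, hn⟩ : ∃ n : ℤ, Q.under ℤ = Ideal.span {n} :=
    ⟨_, (IsPrincipalIdealRing.principal (Q.under ℤ)).span_singleton_generator.symm⟩
  have hn0 : n ≠ 0 := by
    rintro rfl
    exact h1 (by rw [hn]; simp)
  have hnp : Prime n := by
    rw [hn] at h2
    exact (Ideal.span_singleton_prime hn0).mp h2
  refine ⟨n.natAbs, Int.prime_iff_natAbs_prime.mp hnp, ?_⟩
  have h3 : (n.natAbs : ℤ) ∈ Q.under ℤ := by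
    rw [hn, Ideal.mem_span_singleton]
    exact Int.dvd_natAbs.mpr dvd_rfl
  have h4 : algebraMap ℤ (𝓞 E) (n.natAbs : ℤ) ∈ Q := h3
  simpa using h4

theorem main_liesOver (𝔮 : Ideal (𝓞 E)) [h𝔮 : 𝔮.IsPrime] {r : ℕ} (hrp : r.Prime)
    (hr : (r : 𝓞 E) ∈ 𝔮) : 𝔮.LiesOver (Ideal.span {(r : ℤ)}) := by
  have hrprime : Prime (r : ℤ) := Nat.prime_iff_prime_int.1 hrp
  have hmax : (Ideal.span {(r : ℤ)}).IsMaximal :=
    ((Ideal.span_singleton_prime hrprime.ne_zero).2 hrprime).isMaximal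
      (by simpa [Ideal.span_singleton_eq_bot] using hrprime.ne_zero)
  constructor
  refine hmax.eq_of_le (Ideal.IsPrime.under ℤ 𝔮).ne_top ?_
  rw [Ideal.span_singleton_le_iff_mem, Ideal.mem_comap]
  simpa using hr

/-- The unique prime of `ℚ(ζ_p)` above `p`. -/
theorem main_eq_span {p : ℕ} [Fact p.Prime] [IsCyclotomicExtension {p} ℚ E] {ζ : 𝓞 E}
    (hζ : IsPrimitiveRoot ζ p) (𝔮 : Ideal (𝓞 E)) [𝔮.IsPrime] (h : (p : 𝓞 E) ∈ 𝔮) :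
    𝔮 = Ideal.span {1 - ζ} := by
  have hζ' : IsPrimitiveRoot (ζ : E) p :=
    hζ.map_of_injective (f := algebraMap (𝓞 E) E) RingOfIntegers.coe_injective
  have : 𝔮.LiesOver (Ideal.span {(p : ℤ)}) := main_liesOver 𝔮 Fact.out h
  have h1 := IsCyclotomicExtension.Rat.eq_span_zeta_sub_one_of_liesOver' p E hζ' 𝔮
  have h2 : hζ'.toInteger = ζ := RingOfIntegers.ext rfl
  rw [h1, h2, ← Ideal.span_singleton_neg, neg_sub]

end general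

section main

variable {K : Type*} [Field K] [NumberField K] {E : Type*} [Field E] [NumberField E] [Algebra K E]
  [IsGalois ℚ E] {p : ℕ} [Fact p.Prime]

/-- `E / K` is unramified outside `p`. -/
theorem main_unram {ζ β : 𝓞 E} (hζ : IsPrimitiveRoot ζ p)
    (hfaith : ∀ τ : E ≃ₐ[ℚ] E, sigO τ ζ = ζ → sigO τ β = β → τ = 1)
    (hunr : ∀ P : Ideal (𝓞 E), P.IsPrime → (p : 𝓞 E) ∉ P → ∀ τ : E ≃ₐ[ℚ] E,
      (∀ x : 𝓞 E, sigO τ x - x ∈ P) → sigO τ β = β)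
    (Q : Ideal (𝓞 E)) [Q.IsPrime] (hQ : Q ≠ ⊥) (hpQ : (p : 𝓞 E) ∉ Q) :
    Q.ramificationIdx (𝓞 K) = 1 := by
  have h1 : Q.ramificationIdx ℤ = 1 := ramificationIdx_eq_one_of_inertia Q hQ (fun τ hτ =>
    hfaith τ (sigO_eq_of_inertia hζ Q hpQ τ (hτ ζ)) (hunr Q inferInstance hpQ τ hτ))
  obtain ⟨q, hq, hqQ⟩ := main_exists_prime_mem Q hQ
  have h2 := exactPow_natCast Q hq hqQ
  rw [h1] at h2
  refine ramificationIdx_eq_one_of_exactPow (R := 𝓞 K) Q hQ (t := (q : 𝓞 K)) ?_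
  rwa [map_natCast]

omit [IsGalois ℚ E] in
theorem main_ne_bot (P : Ideal (𝓞 E)) (hpP : (p : 𝓞 E) ∈ P) : P ≠ ⊥ := by
  rintro rfl
  have : (p : 𝓞 E) = 0 := by simpa using hpP
  exact (Fact.out : p.Prime).ne_zero (by exact_mod_cast this)

omit [IsGalois ℚ E] in
/-- the prime of `hsplit` is unramified over `K`. -/
theorem main_unram_p {ζK : 𝓞 K} {ζ : 𝓞 E} (hζK : algebraMap (𝓞 K) (𝓞 E) ζK = ζ)
    (P : Ideal (𝓞 E)) [P.IsPrime] (hpP : (p : 𝓞 E) ∈ P) (h : ExactPow P (1 - ζ) 1) :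
    P.ramificationIdx (𝓞 K) = 1 := by
  refine ramificationIdx_eq_one_of_exactPow (R := 𝓞 K) P (main_ne_bot P hpP) (t := 1 - ζK) ?_
  rwa [map_sub, map_one, hζK]

omit [IsGalois ℚ E] in
theorem main_isPrimitiveRoot {ζK : 𝓞 K} {ζ : 𝓞 E} (hζK : algebraMap (𝓞 K) (𝓞 E) ζK = ζ)
    (hζ : IsPrimitiveRoot ζ p) : IsPrimitiveRoot ζK p :=
  IsPrimitiveRoot.of_map_of_injective (f := algebraMap (𝓞 K) (𝓞 E)) (hζK.symm ▸ hζ)
    algebraMap_int_injective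

theorem main_hideal [IsCyclotomicExtension {p} ℚ K] {ζK αK : 𝓞 K} {ζ β : 𝓞 E}
    (hζK : algebraMap (𝓞 K) (𝓞 E) ζK = ζ) (hαK : algebraMap (𝓞 K) (𝓞 E) αK = β ^ p)
    (hζ : IsPrimitiveRoot ζ p) (hβ0 : β ≠ 0)
    (hfaith : ∀ τ : E ≃ₐ[ℚ] E, sigO τ ζ = ζ → sigO τ β = β → τ = 1)
    (hunr : ∀ P : Ideal (𝓞 E), P.IsPrime → (p : 𝓞 E) ∉ P → ∀ τ : E ≃ₐ[ℚ] E,
      (∀ x : 𝓞 E, sigO τ x - x ∈ P) → sigO τ β = β)
    (P : Ideal (𝓞 E)) [P.IsPrime] (hpP : (p : 𝓞 E) ∈ P) (hP1 : ExactPow P (1 - ζ) 1) :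
    ∃ 𝔞 : Ideal (𝓞 K), 𝔞 ^ p = Ideal.span {αK} := by
  have hα0 : αK ≠ 0 := by
    rintro rfl
    rw [map_zero] at hαK
    exact pow_ne_zero p hβ0 hαK.symm
  refine exists_pow_eq_span (Fact.out : p.Prime).ne_zero hα0 ?_
  intro 𝔮 _ h𝔮 c hc
  obtain ⟨Q, hQprime, hQ0, hQu, hQe⟩ : ∃ Q : Ideal (𝓞 E), Q.IsPrime ∧ Q ≠ ⊥ ∧
      Q.under (𝓞 K) = 𝔮 ∧ Q.ramificationIdx (𝓞 K) = 1 := by
    by_cases hp𝔮 : (p : 𝓞 K) ∈ 𝔮
    · refine ⟨P, inferInstance, main_ne_bot P hpP, ?_, main_unram_p hζK P hpP hP1⟩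
      have hζK' : IsPrimitiveRoot ζK p := main_isPrimitiveRoot hζK hζ
      rw [main_eq_span hζK' 𝔮 hp𝔮]
      have h1 : (p : 𝓞 K) ∈ P.under (𝓞 K) := by
        rw [Ideal.under_def, Ideal.mem_comap, map_natCast]
        exact hpP
      exact main_eq_span hζK' (P.under (𝓞 K)) h1
    · obtain ⟨Q, -, hQp, hQc⟩ := Ideal.exists_ideal_over_prime_of_isIntegral 𝔮
        (⊥ : Ideal (𝓞 E)) (by
          rw [Ideal.comap_bot_of_injective _ algebraMap_int_injective]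
          exact bot_le)
      have hQ0 : Q ≠ ⊥ := by
        rintro rfl
        rw [Ideal.comap_bot_of_injective _ algebraMap_int_injective] at hQc
        exact h𝔮 hQc.symm
      have hpQ : (p : 𝓞 E) ∉ Q := by
        intro h
        apply hp𝔮
        rw [← hQc, Ideal.mem_comap, map_natCast]
        exact h
      exact ⟨Q, hQp, hQ0, hQc, main_unram hζ hfaith hunr Q hQ0 hpQ⟩
  rw [← hQu] at hc
  have h1 := (exactPow_under_iff Q hQ0 hQe αK c).mp hc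
  rw [hαK] at h1
  obtain ⟨d, hd⟩ := exists_exactPow Q hQ0 hβ0
  exact ⟨d, ((hd.pow p).unique h1).symm⟩

omit [IsGalois ℚ E] in
theorem main_hloc [IsCyclotomicExtension {p} ℚ K] (hp3 : 3 ≤ p) {ζK αK : 𝓞 K} {ζ β : 𝓞 E}
    (hζK : algebraMap (𝓞 K) (𝓞 E) ζK = ζ) (hαK : algebraMap (𝓞 K) (𝓞 E) αK = β ^ p)
    (hζ : IsPrimitiveRoot ζ p) (hβ0 : β ≠ 0)
    (P : Ideal (𝓞 E)) [P.IsPrime] (hpP : (p : 𝓞 E) ∈ P) (hP1 : ExactPow P (1 - ζ) 1)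
    (hP2 : ∀ u : 𝓞 E, ∃ m : ℤ, u - (m : 𝓞 E) ∈ P)
    (ε : (𝓞 K)ˣ) (γ : 𝓞 K) (h : αK = ε * γ ^ p) :
    ∃ n : ℤ, (ε : 𝓞 K) - (n : 𝓞 K) ∈ Ideal.span {1 - ζK} ^ 3 := by
  have hp0 : p ≠ 0 := (Fact.out : p.Prime).ne_zero
  set f := algebraMap (𝓞 K) (𝓞 E) with hf
  have h1 : β ^ p = f ε * (f γ) ^ p := by rw [← hαK, h, map_mul, map_pow]
  have hγ0 : f γ ≠ 0 := by
    intro h0
    rw [h0, zero_pow hp0, mul_zero] at h1
    exact pow_ne_zero p hβ0 h1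
  have hdvd : f γ ∣ β := by
    rw [← IsIntegrallyClosed.pow_dvd_pow_iff hp0, h1]
    exact Dvd.intro_left _ rfl
  obtain ⟨u, hu⟩ := hdvd
  have hup : u ^ p = f ε := by
    have h2 : (f γ) ^ p * u ^ p = (f γ) ^ p * f ε := by
      rw [← mul_pow, ← hu, h1, mul_comm]
    exact mul_left_cancel₀ (pow_ne_zero p hγ0) h2
  obtain ⟨m, hm⟩ := hP2 u
  have h1ζ : 1 - ζ ∈ P := by
    have := hP1.1
    rwa [pow_one] at this
  have hprod : u ^ p - (m : 𝓞 E) ^ p ∈ P ^ p := by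
    rw [hζ.pow_sub_pow_eq_prod_sub_mul u (m : 𝓞 E) (Nat.pos_of_ne_zero hp0)]
    have hcard : (Polynomial.nthRootsFinset p (1 : 𝓞 E)).card = p := hζ.card_nthRootsFinset
    have h3 : ∏ η ∈ Polynomial.nthRootsFinset p (1 : 𝓞 E), (u - η * (m : 𝓞 E)) ∈
        ∏ _η ∈ Polynomial.nthRootsFinset p (1 : 𝓞 E), P := by
      refine Ideal.prod_mem_prod ?_
      intro η hη
      rw [Polynomial.mem_nthRootsFinset (Nat.pos_of_ne_zero hp0)] at hη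
      have : NeZero p := ⟨hp0⟩
      obtain ⟨i, -, rfl⟩ := hζ.eq_pow_of_pow_eq_one hη
      have h4 : 1 - ζ ^ i ∈ P := by
        obtain ⟨w, hw⟩ := sub_dvd_pow_sub_pow (1 : 𝓞 E) ζ i
        rw [one_pow] at hw
        rw [hw]
        exact Ideal.mul_mem_right _ _ h1ζ
      have h5 : u - ζ ^ i * (m : 𝓞 E) = (u - (m : 𝓞 E)) + (1 - ζ ^ i) * (m : 𝓞 E) := by ring
      rw [h5]
      exact Ideal.add_mem _ hm (Ideal.mul_mem_right _ _ h4)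
    rwa [Finset.prod_const, hcard] at h3
  have hP3 : u ^ p - (m : 𝓞 E) ^ p ∈ P ^ 3 := Ideal.pow_le_pow_right hp3 hprod
  refine ⟨m ^ p, ?_⟩
  have hζK' : IsPrimitiveRoot ζK p := main_isPrimitiveRoot hζK hζ
  have h6 : (p : 𝓞 K) ∈ P.under (𝓞 K) := by
    rw [Ideal.under_def, Ideal.mem_comap, map_natCast]
    exact hpP
  rw [← main_eq_span hζK' (P.under (𝓞 K)) h6,
    mem_under_pow_iff P (main_ne_bot P hpP) (main_unram_p hζK P hpP hP1)]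
  rw [map_sub, ← hf, ← hup]
  simpa using hP3

theorem main_htype {ζK αK : 𝓞 K} {ζ β : 𝓞 E}
    (hζK : algebraMap (𝓞 K) (𝓞 E) ζK = ζ) (hαK : algebraMap (𝓞 K) (𝓞 E) αK = β ^ p)
    (hβ0 : β ≠ 0)
    (htype : ∀ (σ τ : E ≃ₐ[ℚ] E) (n : ℕ), sigO σ ζ = ζ ^ n → sigO τ ζ = ζ →
      τ (σ (β : E) / (β : E) ^ (n ^ 2)) = σ (β : E) / (β : E) ^ (n ^ 2))
    (σK : K ≃ₐ[ℚ] K) (n : ℕ) (hn : sigO σK ζK = ζK ^ n) :
    ∃ x : K, σK (αK : K) = (αK : K) ^ (n ^ 2) * x ^ p := by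
  obtain ⟨σ, hσ⟩ := exists_lift (E := E) σK
  have hσζ : sigO σ ζ = ζ ^ n := by
    rw [← hζK, sigO_algebraMap σK σ hσ, hn, map_pow]
  obtain ⟨x, hx⟩ := exists_algebraMap_eq_of_fixed (ζK : K)
    (σ (β : E) / (β : E) ^ (n ^ 2)) (by
      intro τ hτ
      refine htype σ τ n hσζ ?_
      apply RingOfIntegers.ext
      show τ (ζ : E) = (ζ : E)
      rw [← hζK]
      exact hτ)
  refine ⟨x, ?_⟩
  apply (algebraMap K E).injective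
  have hα' : algebraMap K E (αK : K) = (β : E) ^ p := by
    have := congrArg (fun y : 𝓞 E => (y : E)) hαK
    exact this
  rw [← hσ, map_mul, map_pow, map_pow, hx, hα', map_pow]
  have hβ' : (β : E) ≠ 0 := by simpa using hβ0
  rw [div_pow, ← pow_mul, ← pow_mul, mul_comm p (n ^ 2), mul_div_cancel₀]
  exact pow_ne_zero _ hβ'

omit [IsGalois ℚ E] in
theorem main_fixes [IsCyclotomicExtension {p} ℚ K] {ζK : 𝓞 K} (hζK' : IsPrimitiveRoot ζK p)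
    (τ : E ≃ₐ[ℚ] E) (hτ : τ (algebraMap K E (ζK : K)) = algebraMap K E (ζK : K)) (y : K) :
    τ (algebraMap K E y) = algebraMap K E y := by
  have hζ'' : IsPrimitiveRoot (ζK : K) p :=
    hζK'.map_of_injective (f := algebraMap (𝓞 K) K) RingOfIntegers.coe_injective
  let pb := hζ''.powerBasis ℚ
  let f : K →ₐ[ℚ] E := (τ : E →ₐ[ℚ] E).comp (IsScalarTower.toAlgHom ℚ K E)
  let g : K →ₐ[ℚ] E := IsScalarTower.toAlgHom ℚ K E
  have hfg : f = g := pb.algHom_ext (by simpa [f, g, pb] using hτ)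
  exact DFunLike.congr_fun hfg y

end main

section final

universe u v

variable {K : Type u} [Field K] [NumberField K] {E : Type v} [Field E] [NumberField E]
  [Algebra K E] [IsGalois ℚ E] {p : ℕ} [Fact p.Prime]

theorem finiteLevel_aux [IsCyclotomicExtension {p} ℚ K] (hcore : CoreStatement.{u} p)
    (hp3 : 3 ≤ p) (ζK : 𝓞 K) (ζ β : 𝓞 E) (hζK : algebraMap (𝓞 K) (𝓞 E) ζK = ζ)
    (hζ : IsPrimitiveRoot ζ p) (hβ0 : β ≠ 0)
    (hfaith : ∀ τ : E ≃ₐ[ℚ] E, sigO τ ζ = ζ → sigO τ β = β → τ = 1)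
    (hkum : ∀ τ : E ≃ₐ[ℚ] E, sigO τ ζ = ζ → ∃ j : ℕ, sigO τ β = ζ ^ j * β)
    (htype : ∀ (σ τ : E ≃ₐ[ℚ] E) (n : ℕ), sigO σ ζ = ζ ^ n → sigO τ ζ = ζ →
      τ (σ (β : E) / (β : E) ^ (n ^ 2)) = σ (β : E) / (β : E) ^ (n ^ 2))
    (hunr : ∀ P : Ideal (𝓞 E), P.IsPrime → (p : 𝓞 E) ∉ P → ∀ τ : E ≃ₐ[ℚ] E,
      (∀ x : 𝓞 E, sigO τ x - x ∈ P) → sigO τ β = β)
    (hsplit : ∃ P : Ideal (𝓞 E), P.IsPrime ∧ (p : 𝓞 E) ∈ P ∧ ∀ τ : E ≃ₐ[ℚ] E,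
      (∀ x : 𝓞 E, x ∈ P ↔ sigO τ x ∈ P) → sigO τ ζ = ζ → sigO τ β = β) :
    ∀ τ : E ≃ₐ[ℚ] E, sigO τ ζ = ζ → sigO τ β = β := by
  have hp0 : p ≠ 0 := (Fact.out : p.Prime).ne_zero
  obtain ⟨P, hPprime, hpP, hP⟩ := hsplit
  obtain ⟨hP1, hP2⟩ := at_p hζ P hpP (fun τ h1 h2 => hfaith τ h2 (hP τ h1 h2))
  obtain ⟨αK, hαK⟩ := exists_algebraMap_eq_of_fixed_int ζK (β ^ p) (by
    intro τ hτ
    rw [hζK] at hτ
    obtain ⟨j, hj⟩ := hkum τ hτ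
    rw [map_pow, hj, mul_pow, ← pow_mul, mul_comm j p, pow_mul, hζ.pow_eq_one, one_pow, one_mul])
  have hα0 : αK ≠ 0 := by
    rintro rfl
    rw [map_zero] at hαK
    exact pow_ne_zero p hβ0 hαK.symm
  have hζK' : IsPrimitiveRoot ζK p := main_isPrimitiveRoot hζK hζ
  obtain ⟨x, hx⟩ := hcore K ζK hζK' αK hα0
    (main_htype hζK hαK hβ0 htype)
    (main_hideal hζK hαK hζ hβ0 hfaith hunr P hpP hP1)
    (main_hloc hp3 hζK hαK hζ hβ0 P hpP hP1 hP2)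
  -- `β = ζ ^ i * x`
  set x' := algebraMap (𝓞 K) (𝓞 E) x with hx'
  have h1 : x' ^ p - β ^ p = 0 := by rw [hx', ← map_pow, hx, hαK, sub_self]
  rw [hζ.pow_sub_pow_eq_prod_sub_mul x' β (Nat.pos_of_ne_zero hp0), Finset.prod_eq_zero_iff] at h1
  obtain ⟨η, hη, h2⟩ := h1
  rw [Polynomial.mem_nthRootsFinset (Nat.pos_of_ne_zero hp0)] at hη
  have : NeZero p := ⟨hp0⟩
  obtain ⟨i, -, rfl⟩ := hζ.eq_pow_of_pow_eq_one hη
  intro τ hτ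
  have h3 : sigO τ x' = x' := by
    apply RingOfIntegers.ext
    show τ (algebraMap K E (x : K)) = algebraMap K E (x : K)
    refine main_fixes hζK' τ ?_ _
    have := congrArg (fun y : 𝓞 E => (y : E)) hτ
    rw [← hζK] at this
    exact this
  have h4 : x' = ζ ^ i * β := sub_eq_zero.mp h2
  rw [h4, map_mul, map_pow, hτ] at h3
  exact mul_left_cancel₀ (pow_ne_zero i (hζ.ne_zero hp0)) h3

/-- **`finiteLevel` from `core`.** -/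
theorem finiteLevel_of_core (hcore : CoreStatement.{v} p)
    (hp3 : 3 ≤ p) (ζ β : 𝓞 E) (hζ : IsPrimitiveRoot ζ p) (hβ0 : β ≠ 0)
    (hfaith : ∀ τ : E ≃ₐ[ℚ] E, sigO τ ζ = ζ → sigO τ β = β → τ = 1)
    (hkum : ∀ τ : E ≃ₐ[ℚ] E, sigO τ ζ = ζ → ∃ j : ℕ, sigO τ β = ζ ^ j * β)
    (htype : ∀ (σ τ : E ≃ₐ[ℚ] E) (n : ℕ), sigO σ ζ = ζ ^ n → sigO τ ζ = ζ →
      τ (σ (β : E) / (β : E) ^ (n ^ 2)) = σ (β : E) / (β : E) ^ (n ^ 2))
    (hunr : ∀ P : Ideal (𝓞 E), P.IsPrime → (p : 𝓞 E) ∉ P → ∀ τ : E ≃ₐ[ℚ] E,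
      (∀ x : 𝓞 E, sigO τ x - x ∈ P) → sigO τ β = β)
    (hsplit : ∃ P : Ideal (𝓞 E), P.IsPrime ∧ (p : 𝓞 E) ∈ P ∧ ∀ τ : E ≃ₐ[ℚ] E,
      (∀ x : 𝓞 E, x ∈ P ↔ sigO τ x ∈ P) → sigO τ ζ = ζ → sigO τ β = β) :
    ∀ τ : E ≃ₐ[ℚ] E, sigO τ ζ = ζ → sigO τ β = β := by
  have hζ' : IsPrimitiveRoot (ζ : E) p :=
    hζ.map_of_injective (f := algebraMap (𝓞 E) E) RingOfIntegers.coe_injective
  have hp0 : NeZero p := ⟨(Fact.out : p.Prime).ne_zero⟩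
  let K := IntermediateField.adjoin ℚ {(ζ : E)}
  have hcyc : IsCyclotomicExtension {p} ℚ K :=
    hζ'.intermediateField_adjoin_isCyclotomicExtension ℚ
  let z : K := ⟨(ζ : E), IntermediateField.mem_adjoin_simple_self ℚ (ζ : E)⟩
  have hz : IsIntegral ℤ z := by
    have h1 : IsIntegral ℤ (algebraMap K E z) := ζ.2
    exact (isIntegral_algebraMap_iff (algebraMap K E).injective).mp h1
  let ζK : 𝓞 K := ⟨z, hz⟩
  exact finiteLevel_aux (K := K) hcore hp3 ζK ζ β (RingOfIntegers.ext rfl) hζ hβ0 hfaith hkum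
    htype hunr hsplit

end final

end Fermat.Agent.S14.FL
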