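import Fermat.Agent.S14.Defs

/-!
# S14, block (FL): the statement `core` of the plan, as a `Prop`
(so that every file of the block is free of holes and can be landed at once).
-/

set_option autoImplicit false

namespace Fermat.Agent.S14

open NumberField

universe u

/-- The statement `core` of the plan, for fields in `Type u`. -/
def CoreStatement (p : ℕ) [Fact p.Prime] : Prop :=
  ∀ (K : Type u) [Field K] [NumberField K] [IsCyclotomicExtension {p} ℚ K] (ζ : 𝓞 K)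
    (_hζ : IsPrimitiveRoot ζ p) (α : 𝓞 K) (_h0 : α ≠ 0)
    (_htype : ∀ (σ : K ≃ₐ[ℚ] K) (n : ℕ), sigO σ ζ = ζ ^ n →
      ∃ x : K, σ (α : K) = (α : K) ^ (n ^ 2) * x ^ p)
    (_hideal : ∃ 𝔞 : Ideal (𝓞 K), 𝔞 ^ p = Ideal.span {α})
    (_hloc : ∀ (ε : (𝓞 K)ˣ) (γ : 𝓞 K), α = ε * γ ^ p →
      ∃ n : ℤ, (ε : 𝓞 K) - (n : 𝓞 K) ∈ Ideal.span {1 - ζ} ^ 3),
    ∃ x : 𝓞 K, x ^ p = α

end Fermat.Agent.S14
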